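import Fermat.Agent.LN.Final
import Fermat.Agent.BadRed.KLConc

/-!
# BLOCK LN, final form
-/

set_option autoImplicit false
set_option linter.unusedSectionVars false

noncomputable section

open AlgebraicCurve Module IntermediateField ModularCurve HahnSeries

namespace Fermat.Agent.LN

open Fermat.Agent.FunField Fermat.Agent.Igusa Fermat.Agent.HeckeRed Fermat.Agent.Degen
  Fermat.Agent.BadRed Fermat.Agent.MzGal

local notation "Qb" => AlgebraicClosure ℚ
local notation "Γ" => (AlgebraicClosure ℚ ≃ₐ[ℚ] AlgebraicClosure ℚ)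

theorem klAt_of_noEll (A : ValuationSubring Qb) (N r : ℕ) [NeZero N] (hr : r.Prime)
    (hA : A.LiesOverPrime r) (hrN : ¬ r ∣ N) (hE : NodeCount.NoEll N r) :
    KLAt A N r hr hA hrN := by
  have i0 : Fact r.Prime := ⟨hr⟩
  have i1 : IsAlgClosed (IsLocalRing.ResidueField A) := isAlgClosed_residueField A
  have i2 : CharP (IsLocalRing.ResidueField A) r := charP_residueField hr hA
  have i5 : IsLocalHom (IsLocalRing.residue A) := inferInstance
  intro hN d hd
  obtain ⟨hft, Z, hKL, -⟩ := exists_KLQ (IsLocalRing.residue A) IsLocalRing.residue_surjective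
    (archA hr hA) N r hrN hA (Cusps.genusFF_residue A N hN) d hd
    (IsAlgClosed.lift (R := ℚ) (S := Qb) (M := ℂ)).toRingHom hE
  exact ⟨_, hft, Z, rfl, rfl, hKL⟩

/-- **BLOCK LN.** -/
theorem locN {N q : ℕ} [NeZero N] (hN : N.Prime) (hN2 : N ≠ 2) (hq : q.Prime)
    (hqN : q ≠ N) (A : ValuationSubring Qb) (hA : A.LiesOverPrime N)
    {R : Type*} [CommRing R] (P : Ideal R) [Module R (JZero N)]
    [SMulCommClass Γ R (JZero N)] :
    ∃ c : ℕ, 0 < c ∧ ∀ n : ℕ, LocN P (JZero N) q A c n := by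
  have hN4 : ¬ N ∣ 4 := by
    intro h
    have h1 : N ∣ 2 := hN.dvd_of_dvd_pow (show N ∣ 2 ^ 2 from h)
    exact hN2 ((Nat.prime_dvd_prime_iff_eq hN Nat.prime_two).mp h1)
  exact locN_of_KL hN hN4 hq hqN A hA
    (klAt_of_noEll A 4 N hN hA hN4 (NodeCount.noEll_of_four_dvd dvd_rfl)) P

end Fermat.Agent.LN
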