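import Fermat.Agent.LN.Tame

/-!
# Tame inertia acting on finite sets and on torsion modules
-/

set_option autoImplicit false
set_option linter.unusedSectionVars false

open scoped Pointwise

namespace Fermat.Agent.LN

attribute [-instance] DivisionRing.toRatAlgebra

section GroupTheory

/-- a finite group of permutations all of whose elements have order a power of `q`. -/
theorem card_map_eq_pow {G X : Type*} [Group G] [MulAction G X] [Finite X] {q : ℕ} [Fact q.Prime]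
    (I : Subgroup G) {K : ℕ} (h : ∀ s ∈ I, ∀ x : X, s ^ (q ^ K) • x = x) :
    ∃ k : ℕ, (MulAction.toPermHom G X).ker.relIndex I = q ^ k := by
  have h1 : IsPGroup q (I.map (MulAction.toPermHom G X)) := by
    rintro ⟨g, s, hs, rfl⟩
    refine ⟨K, ?_⟩
    apply Subtype.ext
    show (MulAction.toPermHom G X s) ^ (q ^ K) = 1
    rw [← map_pow]
    ext x
    exact h s hs x
  have hfin : Finite (I.map (MulAction.toPermHom G X)) := inferInstance
  obtain ⟨k, hk⟩ := IsPGroup.iff_card.mp h1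
  refine ⟨k, ?_⟩
  rw [← hk, Subgroup.relIndex_ker]

end GroupTheory

variable {Ω : Type*} [Field Ω] [Algebra ℚ Ω] {A : ValuationSubring Ω} {p : ℕ}
  [IsGalois ℚ Ω] [IsAlgClosed Ω]

/-- **Tame generator for a finite set.** -/
theorem exists_gen_set (hp : p.Prime) (hA : A.LiesOverPrime p) {q : ℕ} (hq : q.Prime)
    (hqp : q ≠ p) {X : Type*} [MulAction (Ω ≃ₐ[ℚ] Ω) X] [Finite X]
    (hlev : ∀ x : X, ∃ E : IntermediateField ℚ Ω, FiniteDimensional ℚ E ∧
      ∀ s ∈ E.fixingSubgroup, s • x = x)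
    {K : ℕ} (h : ∀ s ∈ A.inertiaSubgroupIn ℚ, ∀ x : X, s ^ (q ^ K) • x = x) :
    ∃ s₀ ∈ A.inertiaSubgroupIn ℚ,
      (∀ s ∈ A.inertiaSubgroupIn ℚ, ∃ j : ℕ, ∀ x : X, s • x = s₀ ^ j • x) ∧
      ∀ Φ : Ω ≃ₐ[ℚ] Ω, A.IsFrobeniusAt Φ p → ∀ x : X, Φ • s₀ • x = s₀ ^ p • Φ • x := by
  have hqf : Fact q.Prime := ⟨hq⟩
  set H := (MulAction.toPermHom (Ω ≃ₐ[ℚ] Ω) X).ker with hH
  have hmemH : ∀ g : Ω ≃ₐ[ℚ] Ω, g ∈ H ↔ ∀ x : X, g • x = x := by
    intro g
    rw [hH, MonoidHom.mem_ker]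
    constructor
    · intro hg x
      exact DFunLike.congr_fun hg x
    · intro hg
      ext x
      exact hg x
  have hn : H.Normal := inferInstance
  choose E hEfin hE using hlev
  have hHE : ∃ E : IntermediateField ℚ Ω, FiniteDimensional ℚ E ∧ E.fixingSubgroup ≤ H := by
    refine ⟨⨆ x, E x, ?_, ?_⟩
    · have := fun x => hEfin x
      exact IntermediateField.finiteDimensional_iSup_of_finite
    · intro s hs
      rw [hmemH]
      intro x
      exact hE x s (IntermediateField.fixingSubgroup_antitone (le_iSup E x) hs)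
  obtain ⟨k, hk⟩ := card_map_eq_pow (X := X) (A.inertiaSubgroupIn ℚ) h
  have hm : ¬ p ∣ H.relIndex (A.inertiaSubgroupIn ℚ) := by
    rw [hk]
    intro hd
    exact hqp ((Nat.prime_dvd_prime_iff_eq hp hq).mp (hp.dvd_of_dvd_pow hd)).symm
  have hroot : ∃ ν : Ω, ν ^ (H.relIndex (A.inertiaSubgroupIn ℚ)) = (p : Ω) := by
    apply IsAlgClosed.exists_pow_nat_eq
    rw [hk]
    exact pow_pos hq.pos _
  obtain ⟨s₀, hs₀, h1, h2⟩ := exists_tame_gen hp hA H hHE hm hroot
  refine ⟨s₀, hs₀, ?_, ?_⟩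
  · intro s hs
    obtain ⟨j, hj⟩ := h1 s hs
    refine ⟨j, fun x => ?_⟩
    have h3 := (hmemH _).mp hj x
    rw [mul_smul, inv_smul_eq_iff] at h3
    exact h3
  · intro Φ hΦ x
    have h3 := (hmemH _).mp (h2 Φ hΦ) (Φ • x)
    rw [mul_smul, inv_smul_eq_iff, mul_smul, mul_smul, inv_smul_smul] at h3
    exact h3

section Modules

variable {J : Type*} [AddCommGroup J] [DistribMulAction (Ω ≃ₐ[ℚ] Ω) J]

/-- iterates of a unipotent element -/
theorem pow_smul_unip {G : Type*} [Group G] [DistribMulAction G J] {s : G} {m : J}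
    (h : s • (s • m - m) = s • m - m) (k : ℕ) : s ^ k • m = m + k • (s • m - m) := by
  induction k with
  | zero => simp
  | succ k ih =>
    have h2 : s • m = m + (s • m - m) := by abel
    rw [pow_succ', mul_smul, ih, smul_add, smul_comm s k (s • m - m), h, succ_nsmul]
    nth_rw 1 [h2]
    abel

/-- **The cardinality estimate.** -/
theorem card_le_sq (hp : p.Prime) (hA : A.LiesOverPrime p) {q : ℕ} (hq : q.Prime)
    (hqp : q ≠ p) [Finite J]
    (hlev : ∀ x : J, ∃ E : IntermediateField ℚ Ω, FiniteDimensional ℚ E ∧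
      ∀ s ∈ E.fixingSubgroup, s • x = x)
    {n : ℕ} (htor : ∀ x : J, q ^ n • x = 0)
    (hunip : ∀ s ∈ A.inertiaSubgroupIn ℚ, ∀ m : J, s • (s • m - m) = s • m - m) :
    Nat.card J ≤ (Nat.card {m : J // ∀ s ∈ A.inertiaSubgroupIn ℚ, s • m = m}) ^ 2 := by
  obtain ⟨s₀, hs₀, h1, -⟩ := exists_gen_set hp hA hq hqp (X := J) hlev (K := n) (by
    intro s hs x
    rw [pow_smul_unip (hunip s hs x), htor, add_zero])
  let f : J →+ J := DistribSMul.toAddMonoidHom J s₀ - AddMonoidHom.id J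
  have hf : ∀ x, f x = s₀ • x - x := fun x => rfl
  have hker : ∀ x : J, x ∈ f.ker ↔ ∀ s ∈ A.inertiaSubgroupIn ℚ, s • x = x := by
    intro x
    rw [AddMonoidHom.mem_ker, hf, sub_eq_zero]
    constructor
    · intro hx s hs
      obtain ⟨j, hj⟩ := h1 s hs
      rw [hj]
      have h3 : s₀ • (s₀ • x - x) = s₀ • x - x := by rw [hx, sub_self, smul_zero]
      rw [pow_smul_unip h3, hx, sub_self, smul_zero, add_zero]
    · intro hx
      exact hx s₀ hs₀
  have hrange : f.range ≤ f.ker := by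
    rintro _ ⟨x, rfl⟩
    rw [AddMonoidHom.mem_ker, hf, hf, hunip s₀ hs₀, sub_self]
  have hcard : Nat.card {m : J // ∀ s ∈ A.inertiaSubgroupIn ℚ, s • m = m} = Nat.card f.ker :=
    Nat.card_congr (Equiv.subtypeEquivRight fun x => (hker x).symm)
  have h2 : Nat.card J = Nat.card f.ker * Nat.card f.range := by
    rw [AddSubgroup.card_eq_card_quotient_mul_card_addSubgroup f.ker, mul_comm,
      Nat.card_congr (QuotientAddGroup.quotientKerEquivRange f).toEquiv]
  rw [hcard, h2, sq]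
  exact Nat.mul_le_mul_left _ (Nat.card_le_card_of_injective _
    (AddSubgroup.inclusion_injective hrange))

/-- the coset of `y` modulo the `n`-torsion -/
def Coset (J : Type*) [AddCommGroup J] (n : ℕ) (y : J) : Type _ := {w : J // n • (w - y) = 0}

theorem coset_smul {G : Type*} [Group G] [DistribMulAction G J] {n : ℕ} {y : J}
    (hy : ∀ s : G, n • (s • y) = n • y) (s : G) {w : J} (hw : n • (w - y) = 0) :
    n • (s • w - y) = 0 := by
  have h1 : s • w - y = s • (w - y) + (s • y - y) := by rw [smul_sub]; abel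
  rw [h1, nsmul_add, ← smul_comm s n (w - y), hw, smul_zero, zero_add, nsmul_sub, hy, sub_self]

/-- the action on the coset -/
@[reducible] def cosetAction {G : Type*} [Group G] [DistribMulAction G J] {n : ℕ} {y : J}
    (hy : ∀ s : G, n • (s • y) = n • y) : MulAction G (Coset J n y) where
  smul s w := ⟨s • w.1, coset_smul hy s w.2⟩
  one_smul w := Subtype.ext (one_smul G w.1)
  mul_smul s t w := Subtype.ext (mul_smul s t w.1)

/-- **Tame generator for the coset of `y`**. -/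
theorem exists_gen_coset (hp : p.Prime) (hA : A.LiesOverPrime p) {q : ℕ} (hq : q.Prime)
    (hqp : q ≠ p)
    (hlev : ∀ x : J, ∃ E : IntermediateField ℚ Ω, FiniteDimensional ℚ E ∧
      ∀ s ∈ E.fixingSubgroup, s • x = x) {K : ℕ} (hfin : {x : J | q ^ K • x = 0}.Finite)
    (hunip : ∀ s ∈ A.inertiaSubgroupIn ℚ, ∀ m : J, q ^ K • m = 0 →
      s • (s • m - m) = s • m - m)
    {y : J} (hy : ∀ s : Ω ≃ₐ[ℚ] Ω, q ^ K • (s • y) = q ^ K • y) :
    ∃ s₀ ∈ A.inertiaSubgroupIn ℚ,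
      (∀ s ∈ A.inertiaSubgroupIn ℚ, ∃ j : ℕ, ∀ w : J, q ^ K • (w - y) = 0 →
        s • w = s₀ ^ j • w) ∧
      ∀ Φ : Ω ≃ₐ[ℚ] Ω, A.IsFrobeniusAt Φ p → ∀ w : J, q ^ K • (w - y) = 0 →
        Φ • s₀ • w = s₀ ^ p • Φ • w := by
  let _ := cosetAction hy
  have hsm : ∀ (s : Ω ≃ₐ[ℚ] Ω) (w : Coset J (q ^ K) y), (s • w).1 = s • w.1 := fun _ _ => rfl
  have hfinX : Finite (Coset J (q ^ K) y) := by
    have := hfin.to_subtype
    exact Finite.of_injective (β := {x : J | q ^ K • x = 0})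
      (fun w : Coset J (q ^ K) y => ⟨w.1 - y, w.2⟩) fun w w' h => by
        have h1 : w.1 - y = w'.1 - y := congrArg Subtype.val h
        exact Subtype.ext (sub_left_injective h1)
  obtain ⟨s₀, hs₀, h1, h2⟩ := exists_gen_set hp hA hq hqp (X := Coset J (q ^ K) y)
    (fun x => by
      obtain ⟨E, hE, h⟩ := hlev x.1
      exact ⟨E, hE, fun s hs => Subtype.ext (h s hs)⟩) (K := K + K) (by
    intro s hs w
    apply Subtype.ext
    rw [hsm]
    have hw := w.2
    set t := s ^ q ^ K with ht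
    have htI : t ∈ A.inertiaSubgroupIn ℚ := Subgroup.pow_mem _ hs _
    have h3 : ∀ m : J, q ^ K • m = 0 → t • m = m := by
      intro m hm
      rw [ht, pow_smul_unip (hunip s hs m hm), nsmul_sub, ← smul_comm s (q ^ K) m, hm, smul_zero,
        sub_zero, add_zero]
    have h4 : q ^ K • (t • w.1 - w.1) = 0 := by
      have h5 : t • w.1 - w.1 = (t • w.1 - y) - (w.1 - y) := by abel
      rw [h5, nsmul_sub, hw, coset_smul hy t hw, sub_zero]
    have h6 : s ^ (q ^ (K + K)) = t ^ (q ^ K) := by rw [ht, ← pow_mul, pow_add]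
    rw [h6, pow_smul_unip (h3 _ h4), h4, add_zero])
  refine ⟨s₀, hs₀, ?_, ?_⟩
  · intro s hs
    obtain ⟨j, hj⟩ := h1 s hs
    exact ⟨j, fun w hw => congrArg Subtype.val (hj ⟨w, hw⟩)⟩
  · intro Φ hΦ w hw
    exact congrArg Subtype.val (h2 Φ hΦ ⟨w, hw⟩)

/-- **The Kummer class is killed by a constant.** -/
theorem kum_abs (hp : p.Prime) (hA : A.LiesOverPrime p) {q : ℕ} (hq : q.Prime)
    (hqp : q ≠ p)
    (hlev : ∀ x : J, ∃ E : IntermediateField ℚ Ω, FiniteDimensional ℚ E ∧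
      ∀ s ∈ E.fixingSubgroup, s • x = x) {K : ℕ} (hfin : {x : J | q ^ K • x = 0}.Finite)
    (T : AddSubgroup J) (hT : ∀ t ∈ T, q ^ K • t = 0)
    (h1 : ∀ s ∈ A.inertiaSubgroupIn ℚ, ∀ m : J, q ^ K • m = 0 → s • m - m ∈ T)
    (h2 : ∀ s ∈ A.inertiaSubgroupIn ℚ, ∀ t ∈ T, s • t = t)
    {Φ : Ω ≃ₐ[ℚ] Ω} (hΦ : A.IsFrobeniusAt Φ p) (h3 : ∀ t ∈ T, Φ • Φ • t = (p * p) • t)
    {k : ℕ} (h4 : ∀ m : J, q ^ K • m = 0 → (∀ s ∈ A.inertiaSubgroupIn ℚ, s • m = m) → k • m ∈ T)
    {C : ℕ} (hkfin : {x : J | k • x = 0}.Finite) (hC : Nat.card {x : J // k • x = 0} ≤ C)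
    (h5 : (Nat.card T) ^ 2 ≤ Nat.card {x : J // q ^ K • x = 0})
    {y : J} (hy : ∀ s : Ω ≃ₐ[ℚ] Ω, q ^ K • (s • y) = q ^ K • y) :
    ∃ z : J, q ^ K • z = (C.factorial * (k * (p * p - 1))) • (q ^ K • y) ∧
      ∀ s ∈ A.inertiaSubgroupIn ℚ, s • z = z := by
  obtain ⟨s₀, hs₀, hg1, hg2⟩ := exists_gen_coset hp hA hq hqp hlev hfin
    (fun s hs m hm => h2 s hs _ (h1 s hs m hm)) hy
  have htor : ∀ (s : Ω ≃ₐ[ℚ] Ω) {m : J}, q ^ K • m = 0 → q ^ K • (s • m) = 0 := by
    intro s m hm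
    rw [← smul_comm s (q ^ K) m, hm, smul_zero]
  have hyy : q ^ K • (y - y) = 0 := by rw [sub_self, smul_zero]
  have hym : ∀ {m : J}, q ^ K • m = 0 → q ^ K • ((y + m) - y) = 0 := by
    intro m hm
    rw [add_sub_cancel_left, hm]
  -- the generator acts on torsion
  have hg1' : ∀ s ∈ A.inertiaSubgroupIn ℚ, ∃ j : ℕ, s • y = s₀ ^ j • y ∧
      ∀ m : J, q ^ K • m = 0 → s • m = s₀ ^ j • m := by
    intro s hs
    obtain ⟨j, hj⟩ := hg1 s hs
    refine ⟨j, hj y hyy, fun m hm => ?_⟩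
    have h6 := hj _ (hym hm)
    rw [smul_add, smul_add, hj y hyy] at h6
    exact add_left_cancel h6
  have hg2y : Φ • s₀ • y = s₀ ^ p • Φ • y := hg2 Φ hΦ y hyy
  have hg2' : ∀ m : J, q ^ K • m = 0 → Φ • s₀ • m = s₀ ^ p • Φ • m := by
    intro m hm
    have h6 := hg2 Φ hΦ _ (hym hm)
    rw [smul_add, smul_add, smul_add, smul_add, hg2y] at h6
    exact add_left_cancel h6
  -- the group `D`
  let M : AddSubgroup J := (nsmulAddMonoidHom (q ^ K) : J →+ J).ker
  have hM : ∀ m, m ∈ M ↔ q ^ K • m = 0 := fun m => AddMonoidHom.mem_ker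
  have hMfin : Finite M := hfin.to_subtype
  let f : M →+ J := (DistribSMul.toAddMonoidHom J s₀ - AddMonoidHom.id J).comp M.subtype
  have hf : ∀ m : M, f m = s₀ • (m : J) - m := fun m => rfl
  set D : AddSubgroup J := f.range with hD
  have hDmem : ∀ m : J, q ^ K • m = 0 → s₀ • m - m ∈ D := fun m hm =>
    ⟨⟨m, (hM m).mpr hm⟩, rfl⟩
  have hDT : D ≤ T := by
    rintro _ ⟨m, rfl⟩
    exact h1 s₀ hs₀ m ((hM _).mp m.2)
  have hpow : ∀ m : J, q ^ K • m = 0 → ∀ i : ℕ, s₀ ^ i • m = m + i • (s₀ • m - m) :=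
    fun m hm i => pow_smul_unip (h2 s₀ hs₀ _ (h1 s₀ hs₀ m hm)) i
  have hΦD' : ∀ m : J, q ^ K • m = 0 → Φ • (s₀ • m - m) = p • (s₀ • Φ • m - Φ • m) := by
    intro m hm
    rw [smul_sub, hg2' m hm, hpow _ (htor Φ hm), add_sub_cancel_left]
  have hΦD : ∀ d ∈ D, Φ • d ∈ D := by
    rintro _ ⟨m, rfl⟩
    rw [hf, hΦD' _ ((hM _).mp m.2)]
    exact D.nsmul_mem (hDmem _ (htor Φ ((hM _).mp m.2))) p
  -- Step A
  have hcop : (q ^ K).Coprime (p * p) := by
    have h6 : q.Coprime p := (Nat.coprime_primes hq hp).mpr hqp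
    exact Nat.Coprime.pow_left K (Nat.Coprime.mul_right h6 h6)
  have hzero : ∀ m : J, q ^ K • m = 0 → (p * p) • m = 0 → m = 0 := by
    intro m hm hm'
    have h6 := (Nat.isCoprime_iff_coprime.mpr hcop)
    obtain ⟨a, b, hab⟩ := h6
    have h7 : m = (a * ((q ^ K : ℕ) : ℤ) + b * ((p * p : ℕ) : ℤ)) • m := by rw [hab, one_smul]
    rw [h7, add_smul, mul_smul, mul_smul, natCast_zsmul, natCast_zsmul, hm, hm', smul_zero,
      smul_zero, add_zero]
  have hA' : ∀ m : J, q ^ K • m = 0 → s₀ • (Φ • Φ • m - m) = Φ • Φ • m - m := by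
    intro m hm
    have h6 : Φ • Φ • (s₀ • m - m) = (p * p) • (s₀ • Φ • Φ • m - Φ • Φ • m) := by
      rw [hΦD' m hm, smul_comm Φ p (s₀ • Φ • m - Φ • m), hΦD' _ (htor Φ hm), smul_smul]
    rw [h3 _ (h1 s₀ hs₀ m hm)] at h6
    have h8 : s₀ • (Φ • Φ • m - m) - (Φ • Φ • m - m) =
        (s₀ • Φ • Φ • m - Φ • Φ • m) - (s₀ • m - m) := by rw [smul_sub]; abel
    have h7 : s₀ • (Φ • Φ • m - m) - (Φ • Φ • m - m) = 0 := by
      apply hzero
      · have h9 : ∀ x : J, q ^ K • x = 0 → q ^ K • (s₀ • x - x) = 0 := by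
          intro x hx
          rw [nsmul_sub, htor s₀ hx, hx, sub_zero]
        apply h9
        rw [nsmul_sub, htor Φ (htor Φ hm), hm, sub_zero]
      · rw [h8, nsmul_sub (s₀ • Φ • Φ • m - Φ • Φ • m), h6, sub_self]
    exact sub_eq_zero.mp h7
  -- Step B
  set φ := s₀ • y - y with hφ
  have hφtor : q ^ K • φ = 0 := by rw [hφ, nsmul_sub, hy, sub_self]
  have hmod : ∀ i : ℕ, s₀ ^ i • (Φ • y) - (Φ • y + i • φ) ∈ D := by
    have hμ : q ^ K • (Φ • y - y) = 0 := by rw [nsmul_sub, hy, sub_self]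
    have hψ : s₀ • (Φ • y) = Φ • y + φ + (s₀ • (Φ • y - y) - (Φ • y - y)) := by
      rw [smul_sub, hφ]; abel
    intro i
    induction i with
    | zero => rw [pow_zero, one_smul, zero_smul, add_zero, sub_self]; exact D.zero_mem
    | succ i ih =>
      have h6 : s₀ ^ (i + 1) • (Φ • y) - (Φ • y + (i + 1) • φ) =
          s₀ • (s₀ ^ i • (Φ • y) - (Φ • y + i • φ)) +
            ((s₀ • (Φ • y - y) - (Φ • y - y)) + i • (s₀ • φ - φ)) := by
        rw [pow_succ', mul_smul, smul_sub s₀ (s₀ ^ i • Φ • y), smul_add s₀ (Φ • y), hψ,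
          smul_comm s₀ i φ, succ_nsmul, nsmul_sub (s₀ • φ)]
        abel
      rw [h6, h2 s₀ hs₀ _ (hDT ih)]
      exact D.add_mem ih (D.add_mem (hDmem _ hμ) (D.nsmul_mem (hDmem _ hφtor) i))
  have hΦφ : Φ • φ - p • φ ∈ D := by
    have h6 : Φ • φ - p • φ = s₀ ^ p • (Φ • y) - (Φ • y + p • φ) := by
      rw [hφ, smul_sub Φ, hg2y, ← hφ]; abel
    rw [h6]
    exact hmod p
  have hΦΦφ : Φ • Φ • φ - (p * p) • φ ∈ D := by
    have h6 : Φ • Φ • φ - (p * p) • φ = Φ • (Φ • φ - p • φ) + p • (Φ • φ - p • φ) := by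
      rw [smul_sub Φ (Φ • φ), smul_comm Φ p φ, nsmul_sub (Φ • φ) (p • φ) p, smul_smul p p φ]
      exact (sub_add_sub_cancel _ _ _).symm
    rw [h6]
    exact D.add_mem (hΦD _ hΦφ) (D.nsmul_mem hΦφ p)
  -- Step C
  have hpp : 1 ≤ p * p := Nat.mul_pos hp.pos hp.pos
  have hφfix₀ : s₀ • ((p * p - 1) • φ) = (p * p - 1) • φ := by
    have h6 : (p * p - 1) • φ = (Φ • Φ • φ - φ) - (Φ • Φ • φ - (p * p) • φ) := by
      have h7 : (p * p) • φ = (p * p - 1) • φ + φ := by
        nth_rw 1 [← Nat.sub_add_cancel hpp]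
        rw [add_smul, one_smul]
      rw [h7]; abel
    rw [h6, smul_sub s₀ (Φ • Φ • φ - φ), hA' φ hφtor, h2 s₀ hs₀ _ (hDT hΦΦφ)]
  have hφtor' : q ^ K • ((p * p - 1) • φ) = 0 := by
    rw [smul_comm, hφtor, smul_zero]
  have hfixpow : ∀ {x : J}, s₀ • x = x → ∀ j : ℕ, s₀ ^ j • x = x := by
    intro x hx j
    induction j with
    | zero => rw [pow_zero, one_smul]
    | succ j ih => rw [pow_succ', mul_smul, ih, hx]
  have hφT : k • ((p * p - 1) • φ) ∈ T := by
    apply h4 _ hφtor'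
    intro s hs
    obtain ⟨j, -, hj⟩ := hg1' s hs
    rw [hj _ hφtor', hfixpow hφfix₀]
  -- Step D: cardinalities
  have hTfin : Finite T := by
    apply Finite.of_injective (β := M) (AddSubgroup.inclusion (fun t ht => (hM t).mpr (hT t ht)))
    exact AddSubgroup.inclusion_injective _
  have hcardM : Nat.card M = Nat.card f.ker * Nat.card D := by
    rw [AddSubgroup.card_eq_card_quotient_mul_card_addSubgroup f.ker, mul_comm,
      Nat.card_congr (QuotientAddGroup.quotientKerEquivRange f).toEquiv]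
  have hkerT : ∀ x : f.ker, k • ((x : M) : J) ∈ T := by
    intro x
    have hx : s₀ • ((x : M) : J) = (x : M) := sub_eq_zero.mp (AddMonoidHom.mem_ker.mp x.2)
    apply h4 _ ((hM _).mp (x : M).2)
    intro s hs
    obtain ⟨j, -, hj⟩ := hg1' s hs
    rw [hj _ ((hM _).mp (x : M).2), hfixpow hx]
  have hcardK : Nat.card f.ker ≤ C * Nat.card T := by
    let g : f.ker →+ T :=
      { toFun := fun x => ⟨k • ((x : M) : J), hkerT x⟩
        map_zero' := Subtype.ext (smul_zero k)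
        map_add' := fun x x' => Subtype.ext (nsmul_add _ _ k) }
    have h6 : Nat.card f.ker = Nat.card g.ker * Nat.card g.range := by
      rw [AddSubgroup.card_eq_card_quotient_mul_card_addSubgroup g.ker, mul_comm,
        Nat.card_congr (QuotientAddGroup.quotientKerEquivRange g).toEquiv]
    rw [h6]
    refine Nat.mul_le_mul ?_ (Nat.card_le_card_of_injective _ Subtype.val_injective)
    refine le_trans ?_ hC
    have := hkfin.to_subtype
    refine Nat.card_le_card_of_injective (β := {x : J | k • x = 0})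
      (fun x : g.ker => ⟨((x : f.ker) : M), congrArg Subtype.val (AddMonoidHom.mem_ker.mp x.2)⟩) ?_
    intro x x' h
    have h7 : (((x : f.ker) : M) : J) = (((x' : f.ker) : M) : J) :=
      congrArg (fun z : {x : J | k • x = 0} => (z : J)) h
    exact Subtype.ext (Subtype.ext (Subtype.ext h7))
  have hTpos : 0 < Nat.card T := Nat.card_pos
  have hDfin : Finite D := by
    apply Finite.of_injective (β := T) (AddSubgroup.inclusion hDT)
    exact AddSubgroup.inclusion_injective _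
  have hDpos : 0 < Nat.card D := Nat.card_pos
  set D' : AddSubgroup T := D.addSubgroupOf T with hD'
  have hcardT : Nat.card T = D'.index * Nat.card D := by
    rw [← AddSubgroup.index_mul_card D']
    congr 1
    exact Nat.card_congr (AddSubgroup.addSubgroupOfEquivOfLe hDT).toEquiv
  have hindex : D'.index ≤ C := by
    have h6 : (Nat.card T) ^ 2 ≤ C * Nat.card T * Nat.card D := by
      refine h5.trans ?_
      show Nat.card M ≤ _
      rw [hcardM]
      exact Nat.mul_le_mul_right _ hcardK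
    have h7 : Nat.card T ≤ C * Nat.card D := by
      have : Nat.card T * Nat.card T ≤ Nat.card T * (C * Nat.card D) := by
        calc Nat.card T * Nat.card T = (Nat.card T) ^ 2 := (sq _).symm
          _ ≤ C * Nat.card T * Nat.card D := h6
          _ = Nat.card T * (C * Nat.card D) := by ring
      exact le_of_mul_le_mul_left this hTpos
    rw [hcardT] at h7
    exact le_of_mul_le_mul_right h7 hDpos
  have hindex0 : 0 < D'.index := by
    apply Nat.pos_of_ne_zero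
    intro h6
    rw [h6, zero_mul] at hcardT
    omega
  have hmemD : C.factorial • (k • ((p * p - 1) • φ)) ∈ D := by
    obtain ⟨e, he⟩ := Nat.dvd_factorial hindex0 hindex
    have h6 : D'.index • (⟨_, hφT⟩ : T) ∈ D' := AddSubgroup.nsmul_index_mem D' _
    have h7 : D'.index • (k • ((p * p - 1) • φ)) ∈ D := AddSubgroup.mem_addSubgroupOf.mp h6
    rw [he, mul_comm, mul_smul]
    exact D.nsmul_mem h7 e
  obtain ⟨m, hm⟩ := hmemD
  rw [hf] at hm
  have hm' : s₀ • (m : J) - m = (C.factorial * (k * (p * p - 1))) • φ := by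
    rw [hm, mul_smul, mul_smul]
  set c := C.factorial * (k * (p * p - 1)) with hc
  have hmtor : q ^ K • (m : J) = 0 := (hM _).mp m.2
  refine ⟨c • y - m, ?_, ?_⟩
  · rw [nsmul_sub, hmtor, sub_zero, smul_comm]
  · have hz : s₀ • (c • y - (m : J)) = c • y - m := by
      rw [smul_sub, smul_comm s₀ c y]
      have h6 : s₀ • y = y + φ := by rw [hφ]; abel
      have h7 : s₀ • (m : J) = m + c • φ := by rw [← hm']; abel
      rw [h6, h7, nsmul_add]; abel
    intro s hs
    obtain ⟨j, hj, hj'⟩ := hg1' s hs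
    rw [smul_sub, smul_comm s c y, hj, hj' _ hmtor, ← smul_comm (s₀ ^ j) c y, ← smul_sub,
      hfixpow hz]

end Modules

end Fermat.Agent.LN
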