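import Fermat.Agent.BadRed.PicLevel
import Fermat.Agent.FunField.AlgClosed
import Fermat.Agent.FunField.RR
import Fermat.Agent.FunField.Duality

/-!
# The class group of a function field of genus zero
-/

set_option autoImplicit false

noncomputable section

open AlgebraicCurve Module

namespace Fermat.Agent.LN

open Fermat.Agent.FunField Fermat.Agent.FunField.PlaceLemmas

theorem pic0_eq_zero {K F : Type*} [Field K] [IsAlgClosed K] [Field F] [Algebra K F] [IsFF K F]
    (hg : genusFF K F = 0) (x : Pic0 K F) : x = 0 := by
  obtain ⟨D, rfl⟩ := Pic0.mk_surjective x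
  have hD : Divisor.degree (D : Divisor K F) = 0 := D.2
  have h1 := riemann_roch (D : Divisor K F)
  rw [hD, hg] at h1
  have h2 : 0 < finrank K (riemannRochSpace (D : Divisor K F)) := by
    have : (0 : ℤ) < finrank K (riemannRochSpace (D : Divisor K F)) := by
      have h3 := Int.natCast_nonneg (finrank K (H1 (D : Divisor K F)))
      push_cast at h1
      linarith
    exact_mod_cast this
  obtain ⟨f, hf, hf0⟩ := exists_ne_zero_of_finrank_pos h2
  have h3 : (0 : Divisor K F) ≤ (D : Divisor K F) + divOf f := by
    intro v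
    have := mem_rr.mp hf v
    rw [mem_geSub_of_ne hf0] at this
    rw [Finsupp.add_apply, divOf_apply, Finsupp.coe_zero, Pi.zero_apply]
    omega
  have h4 : (D : Divisor K F) + divOf f = 0 :=
    eq_zero_of_degree_zero h3 (by rw [map_add, degree_divOf, hD, add_zero])
  have h5 : (0 : Pic0 K F) = Pic0.mk (0 : Divisor.degZero (K := K) (F := F)) := rfl
  rw [h5]
  refine Pic0.mk_eq_of_ord (inv_ne_zero hf0) fun v => ?_
  have h6 := DFunLike.congr_fun h4 v
  rw [Finsupp.add_apply, divOf_apply, Finsupp.coe_zero, Pi.zero_apply] at h6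
  rw [v.ord_inv]
  show (D : Divisor K F) v = (0 : Divisor K F) v + _
  rw [Finsupp.coe_zero, Pi.zero_apply]
  omega

end Fermat.Agent.LN
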