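import Fermat.Agent.LN.Abs
import Fermat.Agent.MzGal.Defs

/-!
# Local data at `N` from the toric packages (abstract part)
-/

set_option autoImplicit false
set_option linter.unusedSectionVars false

namespace Fermat.Agent.LN

open Fermat.Agent.MzGal

local notation "Qb" => AlgebraicClosure ℚ
local notation "Γ" => (AlgebraicClosure ℚ ≃ₐ[ℚ] AlgebraicClosure ℚ)

/-- the toric part of the `n`-torsion -/
structure Pkg (A : ValuationSubring Qb) (r : ℕ) (J : Type*) [AddCommGroup J]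
    [DistribMulAction Γ J] (n k : ℕ) (T : AddSubgroup J) : Prop where
  tors : ∀ t ∈ T, n • t = 0
  inertia_sub : ∀ s ∈ A.inertiaSubgroupIn ℚ, ∀ m : J, n • m = 0 → s • m - m ∈ T
  inertia_fix : ∀ s ∈ A.inertiaSubgroupIn ℚ, ∀ t ∈ T, s • t = t
  frob_sq : ∀ Φ : Γ, A.IsFrobeniusAt Φ r → ∀ t ∈ T, Φ • Φ • t = (r * r) • t
  rat : ∀ m : J, n • m = 0 → (∀ s ∈ A.inertiaSubgroupIn ℚ, s • m = m) → k • m ∈ T
  card : (Nat.card T) ^ 2 ≤ Nat.card {x : J // n • x = 0}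

variable {A : ValuationSubring Qb} {r q : ℕ} {J : Type*} [AddCommGroup J] [DistribMulAction Γ J]

theorem exists_const (hr : r.Prime) (hA : A.LiesOverPrime r) (hq : q.Prime) (hqr : q ≠ r)
    (hlev : ∀ x : J, ∃ E : IntermediateField ℚ Qb, FiniteDimensional ℚ E ∧
      ∀ σ : Γ, (∀ z ∈ E, σ z = z) → σ • x = x)
    (hfin : ∀ n : ℕ, 0 < n → {x : J | n • x = 0}.Finite)
    (hdiv : ∀ (n : ℕ), 0 < n → ∀ (x : J), ∃ y : J, n • y = x)
    (hΦ : ∃ Φ : Γ, A.IsFrobeniusAt Φ r) {k : ℕ} (hk : 0 < k)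
    (H : ∀ n : ℕ, ∃ T : AddSubgroup J, Pkg A r J (q ^ n) k T) :
    ∃ c : ℕ, 0 < c ∧ ∀ n : ℕ, ∀ x : J, (∀ s : Γ, s • x = x) →
      ∃ z : J, q ^ n • z = c • x ∧ ∀ s ∈ A.inertiaSubgroupIn ℚ, s • z = z := by
  obtain ⟨Φ, hΦ⟩ := hΦ
  have hlev' : ∀ x : J, ∃ E : IntermediateField ℚ Qb, FiniteDimensional ℚ E ∧
      ∀ s ∈ E.fixingSubgroup, s • x = x := by
    intro x
    obtain ⟨E, hE, h⟩ := hlev x
    exact ⟨E, hE, fun s hs => h s fun z hz =>
      (IntermediateField.mem_fixingSubgroup_iff E s).mp hs z hz⟩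
  set C := Nat.card {x : J // k • x = 0} with hC
  refine ⟨C.factorial * (k * (r * r - 1)), ?_, ?_⟩
  · have h1 : 1 < r * r := by nlinarith [hr.one_lt]
    exact Nat.mul_pos (Nat.factorial_pos _) (Nat.mul_pos hk (by omega))
  · intro n x hx
    have hqn : 0 < q ^ n := pow_pos hq.pos n
    obtain ⟨y, rfl⟩ := hdiv (q ^ n) hqn x
    obtain ⟨T, hT⟩ := H n
    exact kum_abs hr hA hq hqr hlev' (hfin _ hqn) T hT.tors hT.inertia_sub hT.inertia_fix hΦ
      (hT.frob_sq Φ hΦ) hT.rat (hfin k hk) le_rfl hT.card (fun s => by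
        rw [smul_comm (q ^ n) s y, hx])

/-- transfer along degeneracy maps -/
theorem exists_const_transfer {J' : Type*} [AddCommGroup J'] [DistribMulAction Γ J']
    (pull : J →+ J') (push : J' →+ J) (hpull : ∀ (s : Γ) x, pull (s • x) = s • pull x)
    (hpush : ∀ (s : Γ) x, push (s • x) = s • push x) {d : ℕ} (hd : 0 < d)
    (hpp : ∀ x, push (pull x) = d • x)
    (H : ∃ c : ℕ, 0 < c ∧ ∀ n : ℕ, ∀ x : J', (∀ s : Γ, s • x = x) →
      ∃ z : J', q ^ n • z = c • x ∧ ∀ s ∈ A.inertiaSubgroupIn ℚ, s • z = z) :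
    ∃ c : ℕ, 0 < c ∧ ∀ n : ℕ, ∀ x : J, (∀ s : Γ, s • x = x) →
      ∃ z : J, q ^ n • z = c • x ∧ ∀ s ∈ A.inertiaSubgroupIn ℚ, s • z = z := by
  obtain ⟨c, hc, H⟩ := H
  refine ⟨c * d, Nat.mul_pos hc hd, fun n x hx => ?_⟩
  obtain ⟨z, hz, hfix⟩ := H n (pull x) (fun s => by rw [← hpull, hx])
  refine ⟨push z, ?_, fun s hs => ?_⟩
  · rw [← map_nsmul, hz, map_nsmul, hpp, mul_smul]
  · rw [← hpush, hfix s hs]

variable {R : Type*} [CommRing R] (P : Ideal R) [Module R J] [SMulCommClass Γ R J]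

/-- **The local data at `N`.** -/
theorem exists_locN (hr : r.Prime) (hA : A.LiesOverPrime r) (hq : q.Prime) (hqr : q ≠ r)
    (hlev : ∀ x : J, ∃ E : IntermediateField ℚ Qb, FiniteDimensional ℚ E ∧
      ∀ σ : Γ, (∀ z ∈ E, σ z = z) → σ • x = x)
    (hfin : ∀ n : ℕ, 0 < n → {x : J | n • x = 0}.Finite)
    (hunip : ∀ n : ℕ, ∀ s ∈ A.inertiaSubgroupIn ℚ, ∀ m : J, q ^ n • m = 0 →
      s • (s • m - m) = s • m - m)
    (H : ∃ c : ℕ, 0 < c ∧ ∀ n : ℕ, ∀ x : J, (∀ s : Γ, s • x = x) →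
      ∃ z : J, q ^ n • z = c • x ∧ ∀ s ∈ A.inertiaSubgroupIn ℚ, s • z = z) :
    ∃ c : ℕ, 0 < c ∧ ∀ n : ℕ, LocN P J q A c n := by
  obtain ⟨c, hc, H⟩ := H
  refine ⟨c, hc, fun n => ?_⟩
  have hfinM : Finite (primT P J (q ^ n)) := by
    have := (hfin (q ^ n) (pow_pos hq.pos n)).to_subtype
    exact Finite.of_injective (β := {x : J | q ^ n • x = 0})
      (fun m : primT P J (q ^ n) => ⟨(m : J), m.2.2⟩) fun m m' h => by
        have h1 : (m : J) = m' := congrArg (fun z : {x : J | q ^ n • x = 0} => (z : J)) h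
        exact Subtype.ext h1
  have hu : ∀ s ∈ A.inertiaSubgroupIn ℚ, ∀ m : primT P J (q ^ n),
      s • (s • m - m) = s • m - m := fun s hs m => Subtype.ext (hunip n s hs m m.2.2)
  refine ⟨hu, ?_, H n⟩
  have h1 := card_le_sq (J := primT P J (q ^ n)) hr hA hq hqr (fun x => by
    obtain ⟨E, hE, h⟩ := hlev (x : J)
    exact ⟨E, hE, fun s hs => Subtype.ext (h s fun z hz =>
      (IntermediateField.mem_fixingSubgroup_iff E s).mp hs z hz)⟩) (n := n)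
      (fun x => Subtype.ext x.2.2) hu
  exact h1.trans (Nat.le_mul_of_pos_left _ hc)

end Fermat.Agent.LN
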