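import Fermat.Agent.LN.Slope
import Fermat.Agent.LN.Genus0
import Fermat.Agent.LN.Pkg
import Fermat.Agent.BadRed.RatClassX
import Fermat.Agent.BadRed.LocalPkgQb
import Fermat.Agent.BaseChangeFF.Main
import Fermat.Agent.S27C.Torsion

/-!
# The toric package at a level `N r` with `X₀(N)` of genus zero
-/

set_option autoImplicit false
set_option linter.unusedSectionVars false

noncomputable section

open AlgebraicCurve Module IntermediateField ModularCurve HahnSeries

namespace Fermat.Agent.LN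

open Fermat.Agent.FunField Fermat.Agent.Igusa Fermat.Agent.Deuring Fermat.Agent.AtkinLehner
  Fermat.Agent.HeckeRed Fermat.Agent.Degen Fermat.Agent.BadRed

section Card

attribute [local instance] Fermat.Agent.WeilPairing.isCurveOver

variable {K : Type*} {F : Type*} [Field K] [Field F] [Algebra K F] [IsFF K F] [IsAlgClosed K]
  [CharZero K]

theorem card_torsion {n : ℕ} (hn : 0 < n) :
    Nat.card {x : Pic0 K F // n • x = 0} = n ^ (2 * genusFF K F) := by
  have h1 := Fermat.Agent.BaseChangeFF.natCard_torsion_of_complex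
    (fun E _ _ _ _ n hn => Fermat.Agent.S27C.natCard_torsion_complex n hn) K F n hn
  rw [← h1]
  exact Nat.card_congr (Equiv.subtypeEquivRight fun x => by rw [natCast_zsmul])

end Card

variable {L : Type*} [Field L] [IsAlgClosed L] [CharZero L] (A : ValuationSubring L)
  {κ : Type*} [Field κ] [IsAlgClosed κ] (π : A →+* κ) [IsLocalHom π] (hπ : Function.Surjective π)
  (harch : ArchA π)
  (N r : ℕ) [hr : Fact r.Prime] [hN : NeZero N] [CharP κ r] (hrN : ¬ r ∣ N)

variable (hg : genusFF κ (modularFunctionFieldFullC κ N) =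
    genusFF L (modularFunctionFieldFullC L N))
  (d : CP.DecAut A π) (hd : CP.IsFrob d r)

/-- the number of nodes -/
theorem card_Pt (hg0 : genusFF L (modularFunctionFieldFullC L N) = 0) :
    Nat.card (CP.pen A π hπ harch N r hrN hg d hd).Pt =
      genusFF L (modularFunctionFieldFullC L (N * r)) + 1 := by
  have : NeZero (N * r) := ⟨mul_ne_zero (NeZero.ne N) hr.out.ne_zero⟩
  have H := CP.pen_hyp A π hπ harch N r hrN hg d hd
  have h1 := ((CP.pen A π hπ harch N r hrN hg d hd).structure_fibre H.hRR H.hRR₁ H.hpos).2.1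
  rw [hg, hg0] at h1
  push_cast at h1
  omega

include hg d hd in
/-- the cardinality estimate -/
theorem card_NN_sq_le (hg0 : genusFF L (modularFunctionFieldFullC L N) = 0) {n : ℕ}
    (hn : (n : κ) ≠ 0) :
    haveI : NeZero (N * r) := ⟨mul_ne_zero (NeZero.ne N) hr.out.ne_zero⟩
    (Nat.card ((twoVal A π hπ harch N r hrN).NN n)) ^ 2 ≤
      Nat.card {x : Pic0 L (modularFunctionFieldFullC L (N * r)) // n • x = 0} := by
  have : NeZero (N * r) := ⟨mul_ne_zero (NeZero.ne N) hr.out.ne_zero⟩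
  have H := CP.pen_hyp A π hπ harch N r hrN hg d hd
  have h1 := (TwoVal.card_NN_le H hn).2
  rw [card_Pt A π hπ harch N r hrN hg d hd hg0, Nat.add_sub_cancel] at h1
  have hn0 : 0 < n := Nat.pos_of_ne_zero (by rintro rfl; exact hn (by simp))
  rw [card_torsion hn0]
  calc (Nat.card ((twoVal A π hπ harch N r hrN).NN n)) ^ 2 ≤
      (n ^ (genusFF L (modularFunctionFieldFullC L (N * r)))) ^ 2 := Nat.pow_le_pow_left h1 2
    _ = n ^ (2 * genusFF L (modularFunctionFieldFullC L (N * r))) := by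
      rw [← pow_mul, mul_comm]

/-- rational torsion classes -/
theorem rat_full (hg0 : genusFF L (modularFunctionFieldFullC L N) = 0)
    {Γ₀ : Set (L ≃+* L)}
    (hKL : haveI : NeZero (N * r) := ⟨mul_ne_zero (NeZero.ne N) hr.out.ne_zero⟩
      ∃ (R : (twoVal A π hπ harch N r hrN).RatDat (CP.pen A π hπ harch N r hrN hg d hd).toPencil)
      (_ : Fintype (CP.pen A π hπ harch N r hrN hg d hd).Pt)
      (Z : (CP.pen A π hπ harch N r hrN hg d hd).toPencil.NodeDat
        (CP.pen A π hπ harch N r hrN hg d hd).Pt),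
      R.𝒟 = fixD (coefΓ L (N * r) Γ₀) ∧ R.FK = fixF (coefΓ L (N * r) Γ₀) ∧ R.KL Z)
    {n : ℕ} (hn : n ≠ 0) :
    haveI : NeZero (N * r) := ⟨mul_ne_zero (NeZero.ne N) hr.out.ne_zero⟩
    ∀ x : Pic0 L (modularFunctionFieldFullC L (N * r)), n • x = 0 →
      (∀ g ∈ coefΓ L (N * r) Γ₀, g • x = x) →
      (genusFF L (modularFunctionFieldFullC L (N * r)) + 1) • x ∈
        (twoVal A π hπ harch N r hrN).NN n := by
  have : NeZero (N * r) := ⟨mul_ne_zero (NeZero.ne N) hr.out.ne_zero⟩
  intro x hx hfix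
  obtain ⟨R, hft, Z, h𝒟, hFK, hKL⟩ := hKL
  obtain ⟨D, hDx, hD, f, hf0, hf, hnD⟩ := exists_rat_rep (N * r) hfix hx
  have h1 := smul_mem_NN R hKL (pic0_eq_zero (by rw [hg, hg0])) hn (D := D)
    (by rw [h𝒟]; exact hD) hf0 (by rw [hFK]; exact hf) hnD
  rw [hDx, ← Nat.card_eq_fintype_card, card_Pt A π hπ harch N r hrN hg d hd hg0] at h1
  exact h1

/-- the statement of the lattice theorem for the rational structure given by `Γ₀` -/
def HasKL (Γ₀ : Set (L ≃+* L)) : Prop :=
  haveI : NeZero (N * r) := ⟨mul_ne_zero (NeZero.ne N) hr.out.ne_zero⟩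
  ∃ (R : (twoVal A π hπ harch N r hrN).RatDat (CP.pen A π hπ harch N r hrN hg d hd).toPencil)
      (_ : Fintype (CP.pen A π hπ harch N r hrN hg d hd).Pt)
      (Z : (CP.pen A π hπ harch N r hrN hg d hd).toPencil.NodeDat
        (CP.pen A π hπ harch N r hrN hg d hd).Pt),
      R.𝒟 = fixD (coefΓ L (N * r) Γ₀) ∧ R.FK = fixF (coefΓ L (N * r) Γ₀) ∧ R.KL Z

/-- **The local package with rational classes**, general form. -/
theorem exists_isLocNN_rat (hg0 : genusFF L (modularFunctionFieldFullC L N) = 0)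
    {Γ₀ : Set (L ≃+* L)} (hKL : HasKL A π hπ harch N r hrN hg d hd Γ₀)
    {n : ℕ} (hn : (n : κ) ≠ 0)
    {E E₀ : IntermediateField L (LaurentSeries L)} [IsFF L E] [IsFF L E₀]
    (hE : E = modularFunctionFieldFullC L (N * r)) (hE₀ : E₀ = modularFunctionFieldFullC L N)
    (α β : E₀ →ₐ[L] E) (hα : ∀ x, (α x : LaurentSeries L) = x)
    (hβ : ∀ x, (β x : LaurentSeries L) =
      (haveI : NeZero r := ⟨hr.out.ne_zero⟩; qExpand L r (x : LaurentSeries L)))
    (w : E ≃ₐ[L] E) (h1 : ∀ x, w (α x) = β x) (h2 : ∀ x, w (β x) = α x) :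
    ∃ NN : AddSubgroup (Pic0 L E), IsLocNN A π r n α β w NN ∧
      (∀ x : Pic0 L E, n • x = 0 →
        (∀ σ ∈ Γ₀, ∀ g : SemilinearAut L E, IsCoeff σ g → g • x = x) →
        (genusFF L (modularFunctionFieldFullC L (N * r)) + 1) • x ∈ NN) ∧
      (Nat.card NN) ^ 2 ≤ Nat.card {x : Pic0 L E // n • x = 0} := by
  subst hE hE₀
  have hn0 : n ≠ 0 := by rintro rfl; exact hn (by simp)
  refine ⟨(twoVal A π hπ harch N r hrN).NN n, ?_, fun x hx hfix => ?_, ?_⟩
  · rw [eq_ww N r hrN α β hα hβ w h1 h2]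
    exact isLocNN_full A π hπ harch N r hrN hg d hd hn α β hα hβ
  · exact rat_full A π hπ harch N r hrN hg d hd hg0 hKL hn0 x hx (by
      rintro g ⟨σ, hσ, hgσ⟩
      exact hfix σ hσ g hgσ)
  · exact card_NN_sq_le A π hπ harch N r hrN hg d hd hg0 hn

end Fermat.Agent.LN
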