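import Fermat.Agent.LN.Conc
import Fermat.Agent.NewPoint.Final
import Fermat.Agent.GalJ.Level

/-!
# The toric package for `J₀(N r)` over `ℚ̄`, `X₀(N)` of genus zero
-/

set_option autoImplicit false
set_option linter.unusedSectionVars false

noncomputable section

open AlgebraicCurve Module IntermediateField ModularCurve HahnSeries

namespace Fermat.Agent.LN

open Fermat.Agent.FunField Fermat.Agent.Igusa Fermat.Agent.Deuring Fermat.Agent.AtkinLehner
  Fermat.Agent.HeckeRed Fermat.Agent.Degen Fermat.Agent.BadRed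

local notation "Qb" => AlgebraicClosure ℚ

theorem semi_ext {K F : Type*} [Field K] [Field F] [Algebra K F] {g h : SemilinearAut K F}
    (H : ∀ x : F, g • x = h • x) : g = h := by
  apply Subtype.ext
  apply Prod.ext
  · exact RingEquiv.ext H
  · apply RingEquiv.ext
    intro a
    apply (algebraMap K F).injective
    have h1 : algebraMap K F (SemilinearAut.baseAut g a) =
        algebraMap K F (SemilinearAut.baseAut h a) := by
      rw [← SemilinearAut.smul_algebraMap, ← SemilinearAut.smul_algebraMap]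
      exact H _
    exact h1

/-- the lattice theorem at `A` -/
def KLAt (A : ValuationSubring Qb) (N r : ℕ) [NeZero N] (hr : r.Prime)
    (hA : A.LiesOverPrime r) (hrN : ¬ r ∣ N) : Prop :=
  haveI : Fact r.Prime := ⟨hr⟩
  haveI : IsAlgClosed (IsLocalRing.ResidueField A) := isAlgClosed_residueField A
  haveI : CharP (IsLocalRing.ResidueField A) r := charP_residueField hr hA
  ∀ (hN : (N : IsLocalRing.ResidueField A) ≠ 0) (d : CP.DecAut A (IsLocalRing.residue A))
    (hd : CP.IsFrob d r),
    HasKL A (IsLocalRing.residue A) IsLocalRing.residue_surjective (archA hr hA) N r hrN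
      (Cusps.genusFF_residue A N hN) d hd (inertΓ A)

theorem exists_pkg {N M r : ℕ} [NeZero N] [NeZero M] (hr : r.Prime) (hM : M = N * r)
    (hrN : ¬ r ∣ N) (A : ValuationSubring Qb) (hA : A.LiesOverPrime r)
    (hg0 : genusFF Qb (modularFunctionFieldFullC Qb N) = 0) (hKL : KLAt A N r hr hA hrN)
    {n : ℕ} (hn : ¬ r ∣ n) :
    ∃ T : AddSubgroup (JZero M), Pkg A r (JZero M) n
      (genusFF Qb (modularFunctionFieldFullC Qb M) + 1) T := by
  subst hM
  have i0 : Fact r.Prime := ⟨hr⟩
  have i1 : IsAlgClosed (IsLocalRing.ResidueField A) := isAlgClosed_residueField A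
  have i2 : CharP (IsLocalRing.ResidueField A) r := charP_residueField hr hA
  have i5 : IsLocalHom (IsLocalRing.residue A) := inferInstance
  have i6 : NeZero r := ⟨hr.ne_zero⟩
  have hN : (N : IsLocalRing.ResidueField A) ≠ 0 := fun h =>
    hrN ((CharP.cast_eq_zero_iff _ r N).mp h)
  have hn' : (n : IsLocalRing.ResidueField A) ≠ 0 := fun h =>
    hn ((CharP.cast_eq_zero_iff _ r n).mp h)
  obtain ⟨w, h1, h2⟩ := NewPoint.exists_w_aux hr hrN (Igusa.modularFunctionFieldBar_eq (N * r))
    (Igusa.modularFunctionFieldBar_eq N) (heckeAlphaBar Qb N r) (heckeBetaBar Qb N r)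
    (coe_heckeAlphaBar N r) (coe_heckeBetaBar N r)
  obtain ⟨σ₀, hσ₀⟩ := Fermat.Agent.Frob.exists_isFrobeniusAt hr hA
  let d : CP.DecAut A (IsLocalRing.residue A) :=
    { σ := (σ₀ : Qb ≃+* Qb)
      τ := MulSemiringAction.toRingAut (A.decompositionSubgroup ℚ) (IsLocalRing.ResidueField A)
        ⟨σ₀, hσ₀.mem_decompositionSubgroup⟩
      mem_iff := fun a => (mem_iff_decomp hσ₀.mem_decompositionSubgroup a).symm
      res := residue_decomp hσ₀.mem_decompositionSubgroup }
  have hd : CP.IsFrob d r := fun a => hσ₀.smul_residue_eq a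
  obtain ⟨NN, H, hrat, hcard⟩ := exists_isLocNN_rat A (IsLocalRing.residue A)
    IsLocalRing.residue_surjective
    (archA hr hA) N r hrN (Cusps.genusFF_residue A N hN) d hd hg0 (hKL hN d hd) hn'
    (E := modularFunctionFieldBar (N * r)) (E₀ := modularFunctionFieldBar N)
    (modularFunctionFieldBar_eq _) (modularFunctionFieldBar_eq _) (heckeAlphaBar Qb N r)
    (heckeBetaBar Qb N r) (coe_heckeAlphaBar N r) (coe_heckeBetaBar N r) w h1 h2
  refine ⟨NN, H.tors, fun σ hσ x hx => ?_, fun σ hσ y hy => ?_,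
    fun σ hσ y hy => ?_, fun x hx hfix => ?_, hcard⟩
  · exact (H.inertia (σ : Qb ≃+* Qb) (mem_iff_decomp (decomp_of_inertia hσ))
      (residue_inertia hσ) _ (isCoeff_galois _ σ)).2 x hx
  · exact (H.inertia (σ : Qb ≃+* Qb) (mem_iff_decomp (decomp_of_inertia hσ))
      (residue_inertia hσ) _ (isCoeff_galois _ σ)).1 y hy
  · exact (H.frob (σ : Qb ≃+* Qb) (mem_iff_decomp hσ.mem_decompositionSubgroup)
      (residue_frobenius hσ) _ (isCoeff_galois _ σ)).1 y hy
  · refine hrat x hx ?_
    rintro _ ⟨s, hs, rfl⟩ g hg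
    have h3 : g = arithmeticGalois (modularFunctionFieldFull (N * r)) s :=
      semi_ext fun x => Subtype.ext ((hg x).trans (isCoeff_galois _ s x).symm)
    rw [h3]
    exact hfix s hs

end Fermat.Agent.LN
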