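import Fermat.Agent.LN.ConcQb
import Fermat.Agent.BaseChangeFF.Divisible
import Fermat.Agent.NodeCount.Numerics

/-!
# BLOCK LN: local data of `J₀(N)` at `N`
-/

set_option autoImplicit false
set_option linter.unusedSectionVars false

noncomputable section

open AlgebraicCurve Module IntermediateField ModularCurve HahnSeries

namespace Fermat.Agent.LN

open Fermat.Agent.FunField Fermat.Agent.Igusa Fermat.Agent.HeckeRed Fermat.Agent.Degen
  Fermat.Agent.BadRed Fermat.Agent.MzGal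

local notation "Qb" => AlgebraicClosure ℚ
local notation "Γ" => (AlgebraicClosure ℚ ≃ₐ[ℚ] AlgebraicClosure ℚ)

attribute [local instance] Fermat.Agent.WeilPairing.isCurveOver

theorem finite_torsion (M : ℕ) [NeZero M] (n : ℕ) (hn : 0 < n) :
    {x : JZero M | n • x = 0}.Finite := by
  have h1 := card_torsion (K := Qb) (F := modularFunctionFieldBar M) hn
  have h2 : Nat.card {x : JZero M // n • x = 0} ≠ 0 := by
    rw [h1]; exact (pow_pos hn _).ne'
  have h3 : Finite {x : JZero M // n • x = 0} := Nat.finite_of_card_ne_zero h2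
  exact Set.finite_coe_iff.mp h3

theorem divisible (M : ℕ) [NeZero M] (n : ℕ) (hn : 0 < n) (x : JZero M) :
    ∃ y : JZero M, n • y = x := by
  obtain ⟨y, hy⟩ := Fermat.Agent.BaseChangeFF.pic0_divisible Qb (modularFunctionFieldBar M) n hn x
  exact ⟨y, hy⟩

/-- the Kummer statement at level `4 N` -/
theorem exists_const_four {N q : ℕ} [NeZero N] (hN : N.Prime) (hN4 : ¬ N ∣ 4) (hq : q.Prime)
    (hqN : q ≠ N) (A : ValuationSubring Qb) (hA : A.LiesOverPrime N)
    (hKL : KLAt A 4 N hN hA hN4) :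
    ∃ c : ℕ, 0 < c ∧ ∀ n : ℕ, ∀ x : JZero (N * 4), (∀ s : Γ, s • x = x) →
      ∃ z : JZero (N * 4), q ^ n • z = c • x ∧ ∀ s ∈ A.inertiaSubgroupIn ℚ, s • z = z := by
  have hg0 : genusFF Qb (modularFunctionFieldFullC Qb 4) = 0 :=
    Cusps.genusFF_four Qb (IsAlgClosed.lift (R := ℚ) (S := Qb) (M := ℂ)).toRingHom
  refine exists_const hN hA hq hqN (GalJ.level_JZero (N * 4)) (finite_torsion (N * 4))
    (divisible (N * 4)) (Fermat.Agent.Frob.exists_isFrobeniusAt hN hA)
    (Nat.succ_pos (genusFF Qb (modularFunctionFieldFullC Qb (N * 4)))) (fun n => ?_)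
  exact exists_pkg hN (mul_comm N 4) hN4 A hA hg0 hKL
    (NewPoint.dvd_pow_of_ne hq hN hqN.symm)

/-- **BLOCK LN.** -/
theorem locN_of_KL {N q : ℕ} [NeZero N] (hN : N.Prime) (hN4 : ¬ N ∣ 4) (hq : q.Prime)
    (hqN : q ≠ N) (A : ValuationSubring Qb) (hA : A.LiesOverPrime N)
    (hKL : KLAt A 4 N hN hA hN4) {R : Type*} [CommRing R] (P : Ideal R) [Module R (JZero N)]
    [SMulCommClass Γ R (JZero N)] :
    ∃ c : ℕ, 0 < c ∧ ∀ n : ℕ, LocN P (JZero N) q A c n := by
  have hN2 : ¬ N ^ 2 ∣ N := by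
    intro h
    have h1 := Nat.le_of_dvd hN.pos h
    nlinarith [hN.one_lt]
  refine exists_locN P hN hA hq hqN (GalJ.level_JZero N) (finite_torsion N)
    (fun n s hs m hm => NewPoint.unipotent_torsion hq hN hqN.symm dvd_rfl hN2 A hA s hs m ⟨n, hm⟩)
    ?_
  have h4 : NeZero (4 : ℕ) := ⟨by norm_num⟩
  exact exists_const_transfer (pullPic (heckeAlphaBar Qb N 4)) (pushPic (heckeAlphaBar Qb N 4))
    (fun s x => pullPic_galois (d := 1) (heckeAlphaBar Qb N 4)
      (fun x => by rw [NewPoint.qExpand_one']; exact coe_heckeAlphaBar N 4 x) s x)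
    (fun s x => pushPic_galois (d := 1) (heckeAlphaBar Qb N 4)
      (fun x => by rw [NewPoint.qExpand_one']; exact coe_heckeAlphaBar N 4 x) s x)
    (finrankAlong_pos (heckeAlphaBar Qb N 4)) (fun x => pushPic_pullPic _ x)
    (exists_const_four hN hN4 hq hqN A hA hKL)

end Fermat.Agent.LN
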