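import Fermat.Agent.BadRed.KLat8
import Fermat.Agent.BadRed.KLat5
import Fermat.Agent.BadRed.GlueCount
import Fermat.Agent.BadRed.RatClass

/-!
# Rational torsion classes are in the toric part up to the number of nodes (genus zero components)
-/

set_option autoImplicit false
set_option linter.unusedSectionVars false

noncomputable section

open Module AlgebraicCurve

namespace Fermat.Agent.LN

open Fermat.Agent.FunField Fermat.Agent.FunField.PlaceLemmas Fermat.Agent.Deuring
  Fermat.Agent.BadRed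

variable {L k : Type*} [Field L] [Field k]
variable {F F₁ : Type*} [Field F] [Field F₁] [Algebra L F] [Algebra k F₁]
variable {T : TwoVal L k F F₁} {p : Pencil T.toRData}
variable [IsFF L F] [HasPrincipalDivisors L F] [IsAlgClosed L]
variable [IsFF k F₁] [HasPrincipalDivisors k F₁] [IsAlgClosed k]

/-- the slope of a function with divisor `n D` is divisible by `n` up to the number of nodes -/
theorem dvd_card_mul_slope (R : T.RatDat p) {ι : Type*} [Fintype ι] {Z : p.NodeDat ι}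
    (H : R.KL Z) {n : ℕ} {D : Divisor L F} (hD : D ∈ R.𝒟) {f : F} {s : ℤ} {x₁ x₂ : F₁}
    (hf : T.SlopeAt (R.ϖ : L) f s x₁ x₂) (hnD : ∀ v : Place L F, (n : ℤ) * D v = v.ord f) :
    (n : ℤ) ∣ Fintype.card ι * s := by
  obtain ⟨h1, -⟩ := H.slope D hD n f s x₁ x₂ hf hnD
  have h2 : n • p.J false D + s • Z.div false = dv (K := k) x₁ hf.1 := by
    ext x
    rw [Finsupp.add_apply, Finsupp.smul_apply, Finsupp.smul_apply, nsmul_eq_mul, smul_eq_mul,
      Z.div_apply, dv_apply, h1]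
    ring
  have h3 := congrArg Divisor.degree h2
  rw [degree_dv, map_add, map_nsmul, map_zsmul, Z.degree_div, nsmul_eq_mul, smul_eq_mul] at h3
  refine ⟨-Divisor.degree (p.J false D), ?_⟩
  linarith

/-- **Rational torsion classes** -/
theorem smul_mem_NN (R : T.RatDat p) {ι : Type*} [Fintype ι] {Z : p.NodeDat ι}
    (H : R.KL Z) (hpic : ∀ x : Pic0 k F₁, x = 0) {n : ℕ} (hn : n ≠ 0)
    {D : Divisor.degZero (K := L) (F := F)} (hD : (D : Divisor L F) ∈ R.𝒟)
    {f : F} (hf0 : f ≠ 0) (hf : f ∈ R.FK)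
    (hnD : ∀ v : Place L F, (n : ℤ) * (D : Divisor L F) v = v.ord f) :
    Fintype.card ι • Pic0.mk D ∈ T.NN n := by
  obtain ⟨s, x₁, x₂, hs⟩ := R.exists_slopeAt hf hf0
  have h1 := dvd_card_mul_slope R H hD hs hnD
  set k' := Fintype.card ι with hk'
  have h2 : (k' • (D : Divisor L F)) ∈ R.𝒟 := R.𝒟.nsmul_mem hD k'
  have h3 : ∀ v : Place L F, (n : ℤ) * (k' • (D : Divisor L F)) v = v.ord (f ^ k') := by
    intro v
    rw [Finsupp.smul_apply, nsmul_eq_mul, ord_pow, ← hnD]
    ring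
  obtain ⟨B₁, B₂, hB⟩ := H.isSp R h2 (hs.pow R.ne k') h3 h1
  have h4 : Pic0.mk ⟨k' • (D : Divisor L F), (hB.degree hn).1⟩ ∈ T.Zn n :=
    TwoVal.mem_Zn_of_isSp hn hB
  have h5 : TwoVal.sp hn ⟨_, h4⟩ = 0 := Prod.ext (hpic _) (hpic _)
  have h6 := TwoVal.mem_NN_of_sp_eq_zero hn h5
  exact h6

end Fermat.Agent.LN
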