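import Fermat.Agent.KField.Ram
import Fermat.Agent.SEL.Inertia
import Fermat.Agent.SEL.Hilb
import Fermat.Agent.QuadRep.RootsOfUnity

/-!
# The tame inertia lemma

`A` is a place of `Ω` over `p`, `I` its inertia group, `H` an open normal subgroup of `Gal(Ω/ℚ)`
such that the index `m` of `H ∩ I` in `I` is prime to `p`. If `ν ^ m = p` then every `s ∈ I` fixing
`ν` belongs to `H`.
-/

set_option autoImplicit false
set_option linter.unusedSectionVars false

open scoped Pointwise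

namespace Fermat.Agent.LN

attribute [-instance] DivisionRing.toRatAlgebra

variable {Ω : Type*} [Field Ω] [Algebra ℚ Ω] {A : ValuationSubring Ω} {p : ℕ}

section Basic

variable [Algebra.IsAlgebraic ℚ Ω]

/-- inertia acts trivially on units modulo the maximal ideal -/
theorem val_sub_lt {s : Ω ≃ₐ[ℚ] Ω} (hs : s ∈ A.inertiaSubgroupIn ℚ) {u : Ω}
    (hu : A.valuation u = 1) : A.valuation (s u - u) < 1 :=
  (EC.trivMod_of_mem_inertia A hs).int u hu.le

/-- iterates -/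
theorem val_pow_sub_lt {s : Ω ≃ₐ[ℚ] Ω} (hs : s ∈ A.inertiaSubgroupIn ℚ) {y : Ω}
    (hy : A.valuation (s y - y) < A.valuation y) (i : ℕ) :
    A.valuation ((s ^ i) y - y) < A.valuation y := by
  induction i with
  | zero =>
    rw [pow_zero, AlgEquiv.one_apply, sub_self, map_zero]
    exact lt_of_le_of_lt zero_le hy
  | succ i ih =>
    have h1 : (s ^ (i + 1)) y - y = s ((s ^ i) y - y) + (s y - y) := by
      rw [map_sub, pow_succ', AlgEquiv.mul_apply]; ring
    rw [h1]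
    refine lt_of_le_of_lt (A.valuation.map_add _ _) (max_lt ?_ hy)
    rw [KField.val_smul hs]
    exact ih

/-- an element of finite order prime to the residue characteristic acting trivially modulo the
maximal ideal on a stable subspace acts trivially. -/
theorem smul_eq_of_triv {s : Ω ≃ₐ[ℚ] Ω} (hs : s ∈ A.inertiaSubgroupIn ℚ)
    (F : AddSubgroup Ω) (hF : ∀ x ∈ F, s x ∈ F)
    (htriv : ∀ x ∈ F, x ≠ 0 → A.valuation (s x - x) < A.valuation x) {m : ℕ}
    (hm : A.valuation (m : Ω) = 1) {x : Ω} (hx : x ∈ F) (hsx : (s ^ m) x = x) : s x = x := by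
  have hFi : ∀ i : ℕ, (s ^ i) x ∈ F := by
    intro i
    induction i with
    | zero => exact hx
    | succ i ih => rw [pow_succ', AlgEquiv.mul_apply]; exact hF _ ih
  set S : Ω := ∑ i ∈ Finset.range m, (s ^ i) x with hS
  have hsS : s S = S := by
    have h1 : s S = ∑ i ∈ Finset.range m, (s ^ (i + 1)) x := by
      rw [hS, map_sum]
      refine Finset.sum_congr rfl fun i _ => ?_
      rw [pow_succ', AlgEquiv.mul_apply]
    have h2 := Finset.sum_range_succ' (fun i => (s ^ i) x) m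
    have h3 := Finset.sum_range_succ (fun i => (s ^ i) x) m
    rw [h3, hsx] at h2
    rw [h1, hS]
    have h4 : (s ^ 0) x = x := rfl
    rw [h4] at h2
    exact (add_right_cancel h2).symm
  have hsiS : ∀ i : ℕ, (s ^ i) S = S := by
    intro i
    induction i with
    | zero => rfl
    | succ i ih => rw [pow_succ', AlgEquiv.mul_apply, ih, hsS]
  have hm0 : (m : Ω) ≠ 0 := by
    intro h
    rw [h, map_zero] at hm
    exact zero_ne_one hm
  set y : Ω := (m : Ω) * x - S with hy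
  have hyF : y ∈ F := by
    refine F.sub_mem ?_ (F.sum_mem fun i _ => hFi i)
    rw [← nsmul_eq_mul]
    exact F.nsmul_mem hx m
  have hsum : ∑ i ∈ Finset.range m, (s ^ i) y = 0 := by
    have h1 : ∀ i : ℕ, (s ^ i) y = (m : Ω) * (s ^ i) x - S := by
      intro i
      rw [hy, map_sub, map_mul, map_natCast, hsiS]
    simp only [h1]
    rw [Finset.sum_sub_distrib, ← Finset.mul_sum, ← hS, Finset.sum_const, Finset.card_range,
      nsmul_eq_mul, sub_self]
  have hy0 : y = 0 := by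
    by_contra hne
    have h1 := htriv y hyF hne
    have h2 : ∑ i ∈ Finset.range m, ((s ^ i) y - y) = -((m : Ω) * y) := by
      rw [Finset.sum_sub_distrib, hsum, Finset.sum_const, Finset.card_range, nsmul_eq_mul,
        zero_sub]
    have h3 : A.valuation (∑ i ∈ Finset.range m, ((s ^ i) y - y)) < A.valuation y :=
      Valuation.map_sum_lt _ ((Valuation.ne_zero_iff _).mpr hne) fun i _ => val_pow_sub_lt hs h1 i
    rw [h2, Valuation.map_neg, map_mul, hm, one_mul] at h3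
    exact lt_irrefl _ h3
  have h5 : (m : Ω) * x = S := sub_eq_zero.mp hy0
  have h6 : (m : Ω) * s x = (m : Ω) * x := by
    have := congrArg s h5
    rw [map_mul, map_natCast, hsS, ← h5] at this
    exact this
  exact mul_left_cancel₀ hm0 h6

end Basic

variable [IsGalois ℚ Ω]

/-- elements fixed by `J` are multiplied by principal units by the elements fixing `ν` -/
theorem val_smul_sub_lt (hp : p.Prime) (hA : A.LiesOverPrime p) (J : Subgroup (Ω ≃ₐ[ℚ] Ω))
    (hJ : J.relIndex (A.inertiaSubgroupIn ℚ) ≠ 0) {ν : Ω}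
    (hν : ν ^ (J.relIndex (A.inertiaSubgroupIn ℚ)) = (p : Ω)) {s : Ω ≃ₐ[ℚ] Ω}
    (hs : s ∈ A.inertiaSubgroupIn ℚ) (hsν : s ν = ν) {θ : Ω} (hθ : θ ≠ 0)
    (hfix : ∀ t ∈ J, t θ = θ) : A.valuation (s θ - θ) < A.valuation θ := by
  have hchar : CharZero Ω := SEL.charZero_of_algebra
  have hp0 : (p : Ω) ≠ 0 := by exact_mod_cast hp.ne_zero
  have hν0 : ν ≠ 0 := by
    rintro rfl
    rw [zero_pow hJ] at hν
    exact hp0 hν.symm
  obtain ⟨n, hn⟩ := KField.val_pow_index hp hA J hJ hθ hfix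
  have h1 : A.valuation θ = A.valuation (ν ^ n) := by
    have h2 : A.valuation θ ^ (J.relIndex (A.inertiaSubgroupIn ℚ)) =
        (A.valuation (ν ^ n)) ^ (J.relIndex (A.inertiaSubgroupIn ℚ)) := by
      rw [hn, ← hν, map_pow, map_zpow₀, ← zpow_natCast, ← zpow_mul, ← zpow_natCast, ← zpow_mul,
        mul_comm]
    exact (pow_left_inj₀ zero_le zero_le hJ).mp h2
  have hνn : ν ^ n ≠ 0 := zpow_ne_zero _ hν0
  have hu : A.valuation (θ / ν ^ n) = 1 := by
    rw [map_div₀, h1, div_self ((Valuation.ne_zero_iff _).mpr hνn)]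
  have h3 := val_sub_lt hs hu
  have h4 : s θ - θ = ν ^ n * (s (θ / ν ^ n) - θ / ν ^ n) := by
    rw [map_div₀, map_zpow₀, hsν, mul_sub, mul_div_cancel₀ _ hνn, mul_div_cancel₀ _ hνn]
  rw [h4, map_mul, ← h1]
  calc A.valuation θ * A.valuation (s (θ / ν ^ n) - θ / ν ^ n) < A.valuation θ * 1 :=
        mul_lt_mul_of_pos_left h3 ((Valuation.pos_iff _).mpr hθ)
    _ = A.valuation θ := mul_one _

/-- finite level: an automorphism fixing the field fixed by `J` belongs to `H`, if `J ≤ H` and `H`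
is open. -/
theorem mem_of_fixes (J H : Subgroup (Ω ≃ₐ[ℚ] Ω)) (hJH : J ≤ H)
    (hE : ∃ E : IntermediateField ℚ Ω, FiniteDimensional ℚ E ∧ E.fixingSubgroup ≤ H)
    {s : Ω ≃ₐ[ℚ] Ω} (hs : ∀ x : Ω, (∀ t ∈ J, t x = x) → s x = x) : s ∈ H := by
  obtain ⟨E₀, hfin, hE₀⟩ := hE
  let E : IntermediateField ℚ Ω := IntermediateField.normalClosure ℚ E₀ Ω
  have hEfin : FiniteDimensional ℚ E := inferInstance
  have hEn : Normal ℚ E := inferInstance
  have hle : E.fixingSubgroup ≤ H :=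
    (IntermediateField.fixingSubgroup_antitone (IntermediateField.le_normalClosure E₀)).trans hE₀
  let ρ : (Ω ≃ₐ[ℚ] Ω) →* (E ≃ₐ[ℚ] E) := AlgEquiv.restrictNormalHom E
  have hρ : ∀ (g : Ω ≃ₐ[ℚ] Ω) (x : E), ((ρ g x : E) : Ω) = g x := fun g x =>
    AlgEquiv.restrictNormal_commutes g E x
  have h1 : ρ s ∈ IntermediateField.fixingSubgroup (IntermediateField.fixedField (J.map ρ)) := by
    rw [IntermediateField.mem_fixingSubgroup_iff]
    intro x hx
    rw [IntermediateField.mem_fixedField_iff] at hx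
    apply Subtype.ext
    rw [hρ]
    apply hs
    intro t ht
    have := congrArg Subtype.val (hx (ρ t) (Subgroup.mem_map_of_mem ρ ht))
    rw [hρ] at this
    exact this
  rw [IntermediateField.fixingSubgroup_fixedField] at h1
  obtain ⟨t, ht, hts⟩ := Subgroup.mem_map.mp h1
  have h2 : t⁻¹ * s ∈ E.fixingSubgroup := by
    rw [IntermediateField.mem_fixingSubgroup_iff]
    intro x hx
    have h3 : ρ (t⁻¹ * s) = 1 := by rw [map_mul, map_inv, hts, inv_mul_cancel]
    have h4 := hρ (t⁻¹ * s) ⟨x, hx⟩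
    rw [h3] at h4
    exact h4.symm
  have h5 : s = t * (t⁻¹ * s) := by group
  rw [h5]
  exact H.mul_mem (hJH ht) (hle h2)

/-- **The tame inertia lemma.** -/
theorem mem_of_fixes_root (hp : p.Prime) (hA : A.LiesOverPrime p) (H : Subgroup (Ω ≃ₐ[ℚ] Ω))
    [hn : H.Normal]
    (hE : ∃ E : IntermediateField ℚ Ω, FiniteDimensional ℚ E ∧ E.fixingSubgroup ≤ H)
    (hm : ¬ p ∣ H.relIndex (A.inertiaSubgroupIn ℚ)) {ν : Ω}
    (hν : ν ^ (H.relIndex (A.inertiaSubgroupIn ℚ)) = (p : Ω)) {s : Ω ≃ₐ[ℚ] Ω}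
    (hs : s ∈ A.inertiaSubgroupIn ℚ) (hsν : s ν = ν) : s ∈ H := by
  set I := A.inertiaSubgroupIn ℚ with hI
  have hJm : (H ⊓ I).relIndex I = H.relIndex I := Subgroup.inf_relIndex_right H I
  have hm0 : H.relIndex I ≠ 0 := fun h => hm (h ▸ dvd_zero p)
  have hv : A.valuation ((H.relIndex I : ℕ) : Ω) = 1 := by
    apply SEL.valuation_natCast_eq_one hA
    exact ((Nat.Prime.coprime_iff_not_dvd hp).mpr hm).symm
  apply mem_of_fixes (H ⊓ I) H inf_le_left hE
  -- the fixed points of `H ∩ I`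
  let F : AddSubgroup Ω :=
    { carrier := {x | ∀ t ∈ H ⊓ I, t x = x}
      add_mem' := fun {a b} ha hb t ht => by rw [map_add, ha t ht, hb t ht]
      zero_mem' := fun t _ => map_zero t
      neg_mem' := fun {a} ha t ht => by rw [map_neg, ha t ht] }
  have hmemF : ∀ x, x ∈ F ↔ ∀ t ∈ H ⊓ I, t x = x := fun x => Iff.rfl
  intro x hx
  refine smul_eq_of_triv hs F ?_ ?_ hv ((hmemF x).mpr hx) ?_
  · intro y hy
    rw [hmemF] at hy ⊢
    intro t ht
    have h1 : s⁻¹ * t * s ∈ H ⊓ I := by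
      refine ⟨?_, ?_⟩
      · have := hn.conj_mem t ht.1 s⁻¹
        rwa [inv_inv] at this
      · exact I.mul_mem (I.mul_mem (I.inv_mem hs) ht.2) hs
    have h2 := hy _ h1
    have h3 := congrArg s h2
    have h4 : s ((s⁻¹ * t * s) y) = t (s y) := by
      have : t (s y) = (s * (s⁻¹ * t * s)) y := by
        rw [show s * (s⁻¹ * t * s) = t * s by group]
        rfl
      rw [this]
      rfl
    rw [← h4, h3]
  · intro θ hθ hθ0
    refine val_smul_sub_lt hp hA (H ⊓ I) ?_ ?_ hs hsν hθ0 ((hmemF θ).mp hθ)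
    · rw [hJm]; exact hm0
    · rw [hJm]; exact hν
  · apply hx
    refine ⟨?_, I.pow_mem hs _⟩
    have hnorm : (H.subgroupOf I).Normal := inferInstance
    have h1 : (⟨s, hs⟩ : I) ^ (H.subgroupOf I).index ∈ H.subgroupOf I :=
      Subgroup.pow_index_mem _ _
    exact h1

/-- the tame character: `s ν = χ ν` with `χ ^ m = 1` -/
theorem exists_char (p : ℕ) [hchar : CharZero Ω] (hp0 : p ≠ 0) {m : ℕ} (hm0 : m ≠ 0) {ν : Ω}
    (hν : ν ^ m = (p : Ω)) (s : Ω ≃ₐ[ℚ] Ω) : ∃ c : Ω, c ^ m = 1 ∧ s ν = c * ν := by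
  have hp0' : (p : Ω) ≠ 0 := by exact_mod_cast hp0
  have hν0 : ν ≠ 0 := by
    rintro rfl
    rw [zero_pow hm0] at hν
    exact hp0' hν.symm
  refine ⟨s ν / ν, ?_, (div_mul_cancel₀ _ hν0).symm⟩
  rw [div_pow, ← map_pow, hν, map_natCast, div_self hp0']

/-- **Tame generator.** The image of inertia in `Gal / H` is cyclic, generated by the image of
some `s₀`, and Frobenius elements act on it by raising to the power `p`. -/
theorem exists_tame_gen (hp : p.Prime) (hA : A.LiesOverPrime p) (H : Subgroup (Ω ≃ₐ[ℚ] Ω))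
    [hn : H.Normal]
    (hE : ∃ E : IntermediateField ℚ Ω, FiniteDimensional ℚ E ∧ E.fixingSubgroup ≤ H)
    (hm : ¬ p ∣ H.relIndex (A.inertiaSubgroupIn ℚ))
    (hroot : ∃ ν : Ω, ν ^ (H.relIndex (A.inertiaSubgroupIn ℚ)) = (p : Ω)) :
    ∃ s₀ ∈ A.inertiaSubgroupIn ℚ, (∀ s ∈ A.inertiaSubgroupIn ℚ, ∃ j : ℕ, (s₀ ^ j)⁻¹ * s ∈ H) ∧
      ∀ Φ : Ω ≃ₐ[ℚ] Ω, A.IsFrobeniusAt Φ p → (s₀ ^ p)⁻¹ * (Φ * s₀ * Φ⁻¹) ∈ H := by
  obtain ⟨ν, hν⟩ := hroot
  set I := A.inertiaSubgroupIn ℚ with hI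
  have hchar : CharZero Ω := SEL.charZero_of_algebra
  have hm0 : H.relIndex I ≠ 0 := fun h => hm (h ▸ dvd_zero p)
  set m := H.relIndex I with hmdef
  have hmp : m.Coprime p := ((Nat.Prime.coprime_iff_not_dvd hp).mpr hm).symm
  have hp0' : (p : Ω) ≠ 0 := by exact_mod_cast hp.ne_zero
  have hν0 : ν ≠ 0 := by
    rintro rfl
    rw [zero_pow hm0] at hν
    exact hp0' hν.symm
  have hfixν : ∀ t ∈ I, t ν = ν → t ∈ H := fun t ht htν =>
    mem_of_fixes_root hp hA H hE hm hν ht htν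
  have hroots : ∀ t ∈ I, ∀ c : Ω, c ^ m = 1 → t c = c := fun t ht c hc =>
    QuadRep.inertia_smul_root hp hA ht (Nat.pos_of_ne_zero hm0) hmp c hc
  choose c hc1 hc2 using exists_char p hp.ne_zero hm0 hν
  have hmne : NeZero m := ⟨hm0⟩
  -- the tame character
  have hcmul : ∀ s ∈ I, ∀ t ∈ I, c (s * t) = c s * c t := by
    intro s hs t ht
    apply mul_right_cancel₀ hν0
    rw [← hc2, AlgEquiv.mul_apply, hc2 t, map_mul, hroots s hs _ (hc1 t), hc2 s]
    ring
  have hcone : c 1 = 1 := by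
    apply mul_right_cancel₀ hν0
    rw [← hc2, AlgEquiv.one_apply, one_mul]
  let χ : I →* rootsOfUnity m Ω :=
    { toFun := fun s => rootsOfUnity.mkOfPowEq (c s) (hc1 s)
      map_one' := by
        apply Subtype.ext
        apply Units.ext
        rw [rootsOfUnity.coe_mkOfPowEq]
        exact hcone
      map_mul' := fun s t => by
        apply Subtype.ext
        apply Units.ext
        rw [rootsOfUnity.coe_mkOfPowEq]
        exact hcmul s s.2 t t.2 }
  have hχ : ∀ s : I, (((χ s : rootsOfUnity m Ω) : Ωˣ) : Ω) = c s := fun s =>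
    rootsOfUnity.coe_mkOfPowEq _
  obtain ⟨⟨g, s₀, hs₀⟩, hg⟩ := IsCyclic.exists_monoid_generator (α := χ.range)
  subst hs₀
  refine ⟨s₀, s₀.2, ?_, ?_⟩
  · intro s hs
    obtain ⟨j, hj⟩ := Submonoid.mem_powers_iff _ _ |>.mp (hg ⟨χ ⟨s, hs⟩, ⟨s, hs⟩, rfl⟩)
    refine ⟨j, ?_⟩
    have h1 : (χ s₀) ^ j = χ ⟨s, hs⟩ := congrArg Subtype.val hj
    rw [← map_pow] at h1
    have h2 : c ((s₀ : Ω ≃ₐ[ℚ] Ω) ^ j) = c s := by
      have h3 := congrArg (fun z : rootsOfUnity m Ω => ((z : Ωˣ) : Ω)) h1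
      simp only [hχ] at h3
      exact h3
    apply hfixν _ (I.mul_mem (I.inv_mem (I.pow_mem s₀.2 j)) hs)
    rw [AlgEquiv.mul_apply, hc2 s, ← h2, ← hc2]
    exact AlgEquiv.symm_apply_apply _ _
  · intro Φ hΦ
    have hΦdec : Φ • A = A := MulAction.mem_stabilizer_iff.mp hΦ.mem_decompositionSubgroup
    have hconj : Φ * (s₀ : Ω ≃ₐ[ℚ] Ω) * Φ⁻¹ ∈ I := by
      have := SEL.mem_inertia_smul hp hA Φ s₀.2
      rw [hΦdec] at this
      exact this
    apply hfixν _ (I.mul_mem (I.inv_mem (I.pow_mem s₀.2 p)) hconj)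
    have hpow : ∀ j : ℕ, c ((s₀ : Ω ≃ₐ[ℚ] Ω) ^ j) = c s₀ ^ j := by
      intro j
      induction j with
      | zero => rw [pow_zero, pow_zero, hcone]
      | succ j ih => rw [pow_succ, pow_succ, hcmul _ (I.pow_mem s₀.2 j) _ s₀.2, ih]
    have h1 : (Φ * (s₀ : Ω ≃ₐ[ℚ] Ω) * Φ⁻¹) ν = (c s₀) ^ p * ν := by
      have h2 : Φ (Φ⁻¹ ν) = ν := AlgEquiv.apply_symm_apply Φ ν
      rw [AlgEquiv.mul_apply, AlgEquiv.mul_apply, hc2 Φ⁻¹, map_mul, hroots _ s₀.2 _ (hc1 _), hc2 s₀,
        mul_left_comm, map_mul, ← hc2 Φ⁻¹, h2,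
        QuadRep.frobenius_smul_root hp hA hΦ (Nat.pos_of_ne_zero hm0) hmp _ (hc1 _)]
    rw [AlgEquiv.mul_apply, h1, ← hpow, ← hc2]
    exact AlgEquiv.symm_apply_apply _ _

end Fermat.Agent.LN
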